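import Mathlib
import Fermat.Prelude.Def_FLTPrelim_Ramification
import Fermat.Prelude.Def_EllipticCurve_FrobeniusTrace

/-!
# The tangent bound with auxiliary primes: interface of the Galois cohomology package

Everything is stated with level-constant cochains. No duality theorem is stated: the bound only
needs the vanishing of the sum of the invariants of a global class, the pairing at auxiliary
primes, and a lower bound for the dual classes with ramification in a finite set.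
-/

set_option autoImplicit false

noncomputable section

open scoped Pointwise

namespace FLTAgent.Lowering.P1

local notation "LL" => AlgebraicClosure ℚ
local notation "GG" => (AlgebraicClosure ℚ ≃ₐ[ℚ] AlgebraicClosure ℚ)

/-- The residual representation, with full image. -/
structure Datum (p : ℕ) [Fact p.Prime] where
  p_gt : 3 < p
  rb : GG →* GL (Fin 2) (ZMod p)
  surjective : Function.Surjective rb
  level : ∃ L : IntermediateField ℚ LL, FiniteDimensional ℚ L ∧
    ∀ σ : GG, (∀ x ∈ L, σ x = x) → rb σ = 1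
  det_cyclo : ∀ (σ : GG) (ζ : LL), ζ ^ p = 1 →
    σ ζ = ζ ^ (Matrix.det (rb σ : Matrix (Fin 2) (Fin 2) (ZMod p))).val
  bad : Finset ℕ
  bad_prime : ∀ l ∈ bad, l.Prime
  p_mem : p ∈ bad
  unramified : ∀ l : ℕ, l.Prime → l ∉ bad → ∀ V : ValuationSubring LL, V.LiesOverPrime l →
    ∀ σ ∈ V.inertiaSubgroupIn ℚ, rb σ = 1

/-- A function constant on the right cosets of an open subgroup. -/
def LevC {G : Type} [Group G] (ι : G →* GG) {α : Type} (f : G → α) : Prop :=
  ∃ F : IntermediateField ℚ LL, FiniteDimensional ℚ F ∧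
    ∀ g s : G, ι s ∈ F.fixingSubgroup → f (g * s) = f g

/-- The same for functions of two variables. -/
def LevC₂ {G : Type} [Group G] (ι : G →* GG) {α : Type} (f : G → G → α) : Prop :=
  ∃ F : IntermediateField ℚ LL, FiniteDimensional ℚ F ∧
    ∀ g h s t : G, ι s ∈ F.fixingSubgroup → ι t ∈ F.fixingSubgroup → f (g * s) (h * t) = f g h

variable {p : ℕ} [Fact p.Prime] (D : Datum p)
  (k : Type) [Field k] [Algebra (ZMod p) k]

namespace Datum

/-- The determinant, which is the cyclotomic character modulo `p`. -/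
def om (σ : GG) : ZMod p := Matrix.det (D.rb σ : Matrix (Fin 2) (Fin 2) (ZMod p))

/-- The residual representation with coefficients extended. -/
def rbk (σ : GG) : GL (Fin 2) k :=
  Matrix.GeneralLinearGroup.map (algebraMap (ZMod p) k) (D.rb σ)

/-- The adjoint action, twisted by the power `e` of the cyclotomic character. -/
def tw (e : ℕ) (σ : GG) : Matrix (Fin 2) (Fin 2) k →ₗ[k] Matrix (Fin 2) (Fin 2) k :=
  algebraMap (ZMod p) k (D.om σ ^ e) •
    (LinearMap.mulLeft k (D.rbk k σ : Matrix (Fin 2) (Fin 2) k) ∘ₗ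
      LinearMap.mulRight k (((D.rbk k σ)⁻¹ : GL (Fin 2) k) : Matrix (Fin 2) (Fin 2) k))

/-- The coboundary of a matrix. -/
def bdy (e : ℕ) {G : Type} [Group G] (ι : G →* GG) :
    Matrix (Fin 2) (Fin 2) k →ₗ[k] (G → Matrix (Fin 2) (Fin 2) k) :=
  LinearMap.pi fun g => D.tw k e (ι g) - LinearMap.id

/-- The trace zero matrices. -/
def trZero : Submodule k (Matrix (Fin 2) (Fin 2) k) :=
  LinearMap.ker (Matrix.traceLinearMap (Fin 2) k k)

/-- Level constant trace zero cocycles. -/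
def cocycles (e : ℕ) {G : Type} [Group G] (ι : G →* GG) :
    Submodule k (G → Matrix (Fin 2) (Fin 2) k) where
  carrier := {c | LevC ι c ∧ (∀ g, Matrix.trace (c g) = 0) ∧
    ∀ g h, c (g * h) = c g + D.tw k e (ι g) (c h)}
  zero_mem' := ⟨⟨⊥, inferInstance, fun _ _ _ => rfl⟩, fun _ => by simp, fun _ _ => by simp⟩
  add_mem' := by
    rintro c c' ⟨⟨F, hF, hc⟩, ht, hh⟩ ⟨⟨F', hF', hc'⟩, ht', hh'⟩
    refine ⟨⟨F ⊔ F', inferInstance, fun g s hs => ?_⟩, fun g => by simp [ht, ht'], fun g h => ?_⟩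
    · simp only [Pi.add_apply]
      rw [hc g s (IntermediateField.fixingSubgroup_antitone le_sup_left hs),
        hc' g s (IntermediateField.fixingSubgroup_antitone le_sup_right hs)]
    · simp only [Pi.add_apply, hh, hh', map_add]
      abel
  smul_mem' := by
    rintro a c ⟨⟨F, hF, hc⟩, ht, hh⟩
    exact ⟨⟨F, hF, fun g s hs => by simp only [Pi.smul_apply, hc g s hs]⟩, fun g => by simp [ht],
      fun g h => by simp only [Pi.smul_apply, hh, smul_add, map_smul]⟩

/-- Coboundaries of trace zero matrices. -/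
def cobs (e : ℕ) {G : Type} [Group G] (ι : G →* GG) :
    Submodule k (G → Matrix (Fin 2) (Fin 2) k) :=
  (trZero k).map (D.bdy k e ι)

/-- Trace zero matrices fixed by a group. -/
def invariants (e : ℕ) {G : Type} [Group G] (ι : G →* GG) :
    Submodule k (Matrix (Fin 2) (Fin 2) k) :=
  trZero k ⊓ LinearMap.ker (D.bdy k e ι)

/-- The global cocycles unramified outside `S`. -/
def cocyclesOutside (e : ℕ) (S : Finset ℕ) : Submodule k (GG → Matrix (Fin 2) (Fin 2) k) where
  carrier := {c | c ∈ D.cocycles k e (MonoidHom.id GG) ∧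
    ∀ l : ℕ, l.Prime → l ∉ S → ∀ V : ValuationSubring LL, V.LiesOverPrime l →
      ∀ σ ∈ V.inertiaSubgroupIn ℚ, c σ = 0}
  zero_mem' := ⟨zero_mem _, fun _ _ _ _ _ _ _ => rfl⟩
  add_mem' := fun {a b} ha hb => ⟨add_mem ha.1 hb.1, fun l hl hlS V hV σ hσ => by
    simp [ha.2 l hl hlS V hV σ hσ, hb.2 l hl hlS V hV σ hσ]⟩
  smul_mem' := fun a c hc => ⟨Submodule.smul_mem _ a hc.1, fun l hl hlS V hV σ hσ => by
    simp [hc.2 l hl hlS V hV σ hσ]⟩

/-- Restriction of functions to a decomposition group. -/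
def resAt (V : ValuationSubring LL) :
    (GG → Matrix (Fin 2) (Fin 2) k) →ₗ[k]
      (↥(V.decompositionSubgroup ℚ) → Matrix (Fin 2) (Fin 2) k) :=
  LinearMap.funLeft k _ Subtype.val

/-- The cup product followed by the trace. -/
def cup {G : Type} [Group G] (ι : G →* GG) (x y : G → Matrix (Fin 2) (Fin 2) k) : G → G → k :=
  fun g h => Matrix.trace (x g * D.tw k 1 (ι g) (y h))

/-- Two cochains with values in the cyclotomic line. -/
def cocycles₂ {G : Type} [Group G] (ι : G →* GG) : Submodule (ZMod p) (G → G → ZMod p) where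
  carrier := {c | LevC₂ ι c ∧
    ∀ g h j, D.om (ι g) * c h j - c (g * h) j + c g (h * j) - c g h = 0}
  zero_mem' := ⟨⟨⊥, inferInstance, fun _ _ _ _ _ _ => rfl⟩, fun _ _ _ => by simp⟩
  add_mem' := by
    rintro c c' ⟨⟨F, hF, hc⟩, hh⟩ ⟨⟨F', hF', hc'⟩, hh'⟩
    refine ⟨⟨F ⊔ F', inferInstance, fun g h s t hs ht => ?_⟩, fun g h j => ?_⟩
    · simp only [Pi.add_apply]
      rw [hc g h s t (IntermediateField.fixingSubgroup_antitone le_sup_left hs)
          (IntermediateField.fixingSubgroup_antitone le_sup_left ht),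
        hc' g h s t (IntermediateField.fixingSubgroup_antitone le_sup_right hs)
          (IntermediateField.fixingSubgroup_antitone le_sup_right ht)]
    · simp only [Pi.add_apply]
      linear_combination hh g h j + hh' g h j
  smul_mem' := by
    rintro a c ⟨⟨F, hF, hc⟩, hh⟩
    refine ⟨⟨F, hF, fun g h s t hs ht => by simp only [Pi.smul_apply, hc g h s t hs ht]⟩,
      fun g h j => ?_⟩
    simp only [Pi.smul_apply, smul_eq_mul]
    linear_combination a * hh g h j

/-- The coboundary of a one cochain with values in the cyclotomic line. -/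
def bdy₂ {G : Type} [Group G] (ι : G →* GG) (f : G → ZMod p) : G → G → ZMod p :=
  fun g h => D.om (ι g) * f h - f (g * h) + f g

/-- The Frobenius elements at `q` have the two distinct eigenvalues `α` and `α⁻¹`. -/
def IsAuxPrime (n q : ℕ) : Prop :=
  q.Prime ∧ q ∉ D.bad ∧ p ∣ q - 1 ∧ p ^ n ∣ q - 1 ∧
    ∃ α : ZMod p, α ^ 2 ≠ 1 ∧ ∀ V : ValuationSubring LL, V.LiesOverPrime q → ∀ σ : GG,
      V.IsFrobeniusAt σ q →
        α ^ 2 - Matrix.trace (D.rb σ : Matrix (Fin 2) (Fin 2) (ZMod p)) * α + 1 = 0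

end Datum

/-! ### The four parts -/

/-- The invariants of two classes, with the sum formula and the pairing at auxiliary primes. -/
structure Invariants where
  inv : ∀ V : ValuationSubring LL,
    (↥(V.decompositionSubgroup ℚ) → ↥(V.decompositionSubgroup ℚ) → ZMod p) →ₗ[ZMod p] ZMod p
  inv_bdy : ∀ (l : ℕ) (V : ValuationSubring LL), l.Prime → V.LiesOverPrime l →
    ∀ f : ↥(V.decompositionSubgroup ℚ) → ZMod p,
      LevC (V.decompositionSubgroup ℚ).subtype f →
        inv V (D.bdy₂ (V.decompositionSubgroup ℚ).subtype f) = 0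
  sum_eq_zero : ∀ S : Finset ℕ, D.bad ⊆ S → (∀ l ∈ S, l.Prime) →
    ∀ c ∈ D.cocycles₂ (MonoidHom.id GG),
      (∀ l : ℕ, l.Prime → l ∉ S → ∀ W : ValuationSubring LL, W.LiesOverPrime l →
        ∀ σ ∈ W.inertiaSubgroupIn ℚ, ∀ g h : GG, c (g * σ) h = c g h ∧ c g (h * σ) = c g h) →
      ∀ V : ℕ → ValuationSubring LL, (∀ l ∈ S, (V l).LiesOverPrime l) →
        ∑ l ∈ S, inv (V l) (fun g h => c g h) = 0
  tame_bound : ∀ (q : ℕ) (V : ValuationSubring LL), D.IsAuxPrime 1 q → V.LiesOverPrime q →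
    FiniteDimensional k ↥(D.cocycles k 0 (V.decompositionSubgroup ℚ).subtype) ∧
    Module.finrank k ↥(D.cocycles k 0 (V.decompositionSubgroup ℚ).subtype) ≤
      Module.finrank k ↥(D.cobs k 0 (V.decompositionSubgroup ℚ).subtype) + 2
  tame_detect : ∀ (q : ℕ) (V : ValuationSubring LL), D.IsAuxPrime 1 q → V.LiesOverPrime q →
    ∀ y ∈ D.cocycles k 1 (V.decompositionSubgroup ℚ).subtype,
      (∀ x ∈ D.cocycles k 0 (V.decompositionSubgroup ℚ).subtype, ∀ φ : k →ₗ[ZMod p] ZMod p,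
        inv V (fun g h => φ (D.cup k (V.decompositionSubgroup ℚ).subtype x y g h)) = 0) →
      y ∈ D.cobs k 1 (V.decompositionSubgroup ℚ).subtype

/-- Part A and B: invariants exist. -/
def TargetInvariants : Prop :=
  ∀ (p : ℕ) [Fact p.Prime] (D : Datum p) (k : Type) [Field k] [Algebra (ZMod p) k]
    [FiniteDimensional (ZMod p) k], Nonempty (Invariants D k)

/-- Part C: finiteness, and enough dual classes for large sets of primes. -/
def TargetUnitBound : Prop :=
  ∀ (p : ℕ) [Fact p.Prime] (D : Datum p) (k : Type) [Field k] [Algebra (ZMod p) k]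
    [FiniteDimensional (ZMod p) k],
    ∃ S₀ : Finset ℕ, (∀ l ∈ S₀, l.Prime) ∧ ∀ S : Finset ℕ, S₀ ⊆ S → D.bad ⊆ S →
      (∀ l ∈ S, l.Prime) →
      FiniteDimensional k ↥(D.cocyclesOutside k 0 S) ∧
      FiniteDimensional k ↥(D.cocyclesOutside k 1 S) ∧
      ∀ V : ℕ → ValuationSubring LL, (∀ l ∈ S, (V l).LiesOverPrime l) →
        4 + ∑ l ∈ S, Module.finrank k
            ↥(D.invariants k 0 ((V l).decompositionSubgroup ℚ).subtype) ≤
          Module.finrank k ↥(D.cocyclesOutside k 1 S)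

/-- Part D: a class which is not a coboundary is seen at auxiliary primes. -/
def TargetPrimes : Prop :=
  ∀ (p : ℕ) [Fact p.Prime] (D : Datum p) (k : Type) [Field k] [Algebra (ZMod p) k]
    [FiniteDimensional (ZMod p) k] (e : ℕ), e ≤ 1 → ∀ (S : Finset ℕ),
    ∀ c ∈ D.cocyclesOutside k e S, c ∉ D.cobs k e (MonoidHom.id GG) →
      ∀ (n : ℕ) (avoid : Finset ℕ), ∃ q, q ∉ avoid ∧ D.IsAuxPrime n q ∧
        ∀ V : ValuationSubring LL, V.LiesOverPrime q →
          Datum.resAt k V c ∉ D.cobs k e (V.decompositionSubgroup ℚ).subtype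

/-- The output: the framed tangent bound with auxiliary primes. Each local space contains the
coboundaries, so that its dimension minus three is the usual local term. -/
def TargetTWBound : Prop :=
  ∀ (p : ℕ) [Fact p.Prime] (D : Datum p) (k : Type) [Field k] [Algebra (ZMod p) k]
    [FiniteDimensional (ZMod p) k] (S : Finset ℕ), D.bad ⊆ S → (∀ l ∈ S, l.Prime) →
    ∃ r : ℕ, ∀ (n : ℕ) (avoid : Finset ℕ), ∃ Q : Finset ℕ, Q.card = r ∧
      (∀ q ∈ Q, q ∉ avoid ∧ q ∉ S ∧ D.IsAuxPrime n q) ∧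
      ∀ (V : ℕ → ValuationSubring LL), (∀ l ∈ S, (V l).LiesOverPrime l) →
      ∀ (Zloc : ∀ l : ℕ, Submodule k
          (↥((V l).decompositionSubgroup ℚ) → Matrix (Fin 2) (Fin 2) k)),
        (∀ l ∈ S, Zloc l ≤ D.cocycles k 0 ((V l).decompositionSubgroup ℚ).subtype ∧
          D.cobs k 0 ((V l).decompositionSubgroup ℚ).subtype ≤ Zloc l ∧
          FiniteDimensional k ↥(Zloc l)) →
      ∀ Z : Submodule k (GG → Matrix (Fin 2) (Fin 2) k),
        Z ≤ D.cocyclesOutside k 0 (S ∪ Q) →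
        (∀ z ∈ Z, ∀ l ∈ S, Datum.resAt k (V l) z ∈ Zloc l) →
        FiniteDimensional k ↥Z ∧
          (Module.finrank k ↥Z : ℤ) ≤
            2 + r + ∑ l ∈ S, ((Module.finrank k ↥(Zloc l) : ℤ) - 3)

/-! ### Norms in cyclic extensions of degree `p`, used for the unit bound -/

/-- The group of a field inside the absolute Galois group. -/
abbrev galOf (L : IntermediateField ℚ LL) : Subgroup GG := L.fixingSubgroup

/-- `b` is a norm for `K` over `L` on the subgroup `H`. -/
def IsNormOn (p : ℕ) (L K : IntermediateField ℚ LL) (H : Subgroup GG) (b : LL) : Prop :=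
  ∃ y : LL, y ≠ 0 ∧ (∀ σ ∈ galOf K ⊓ H, σ y = y) ∧
    ∀ σ ∈ galOf L ⊓ H, σ ∉ galOf K → ∏ i ∈ Finset.range p, (σ ^ i) y = b

/-- The norm theorem and a family of local invariants for a cyclic extension `K` of `L` of degree
`p`, cut out by `ψ`. -/
structure CyclicReciprocity (p : ℕ) [Fact p.Prime] (L K : IntermediateField ℚ LL)
    (ψ : GG → ZMod p) where
  norm_theorem : ∀ b : LL, b ∈ L → b ≠ 0 →
    (∀ (l : ℕ) (V : ValuationSubring LL), l.Prime → V.LiesOverPrime l →
      IsNormOn p L K (V.decompositionSubgroup ℚ) b) → IsNormOn p L K ⊤ b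
  θ : ValuationSubring LL → LL → ZMod p
  θ_mul : ∀ (l : ℕ) (V : ValuationSubring LL), l.Prime → V.LiesOverPrime l →
    ∀ a b : LL, a ∈ L → b ∈ L → a ≠ 0 → b ≠ 0 → θ V (a * b) = θ V a + θ V b
  θ_norm : ∀ (l : ℕ) (V : ValuationSubring LL), l.Prime → V.LiesOverPrime l →
    ∀ b : LL, b ∈ L → b ≠ 0 → IsNormOn p L K (V.decompositionSubgroup ℚ) b → θ V b = 0
  θ_detect : ∀ (l : ℕ) (V : ValuationSubring LL), l.Prime → V.LiesOverPrime l →
    ¬ p ∣ (galOf L).relIndex (V.decompositionSubgroup ℚ) →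
    ∀ b : LL, b ∈ L → b ≠ 0 → θ V b = 0 → IsNormOn p L K (V.decompositionSubgroup ℚ) b
  units_norm : ∀ (l : ℕ) (V : ValuationSubring LL), l.Prime → V.LiesOverPrime l →
    (∀ σ ∈ galOf L, σ ∈ V.inertiaSubgroupIn ℚ → σ ∈ galOf K) →
    ∀ b : LL, b ∈ L → b ≠ 0 → b ∈ V → b⁻¹ ∈ V →
      IsNormOn p L K (V.decompositionSubgroup ℚ) b
  θ_conj : ∀ (γ : GG) (lam : ZMod p), (∀ σ, γ * σ * γ⁻¹ ∈ galOf L ↔ σ ∈ galOf L) →
    (∀ σ ∈ galOf L, ψ (γ * σ * γ⁻¹) = lam * ψ σ) →
    ∀ (l : ℕ) (V : ValuationSubring LL), l.Prime → V.LiesOverPrime l →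
      ∀ b : LL, b ∈ L → b ≠ 0 → θ (γ • V) (γ b) = lam * θ V b
  θ_sum : ∀ b : LL, b ∈ L → b ≠ 0 → ∀ R : Finset (ValuationSubring LL),
    (∀ V ∈ R, ∃ l : ℕ, l.Prime ∧ V.LiesOverPrime l) →
    (∀ V ∈ R, ∀ W ∈ R, ∀ σ ∈ galOf L, σ • V = W → V = W) →
    (∀ (l : ℕ) (V : ValuationSubring LL), l.Prime → V.LiesOverPrime l →
      ¬ IsNormOn p L K (V.decompositionSubgroup ℚ) b → ∃ σ ∈ galOf L, σ • V ∈ R) →
    ∑ V ∈ R, θ V b = 0

/-- The cyclic reciprocity statement. -/
def TargetCyclic : Prop :=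
  ∀ (p : ℕ) [Fact p.Prime], 3 < p →
    ∀ (L : IntermediateField ℚ LL) [FiniteDimensional ℚ L] (ζ : LL), IsPrimitiveRoot ζ p →
      ζ ∈ L → ∀ (ψ : GG → ZMod p), LevC (MonoidHom.id GG) ψ →
        (∀ σ ∈ galOf L, ∀ τ ∈ galOf L, ψ (σ * τ) = ψ σ + ψ τ) → (∃ σ ∈ galOf L, ψ σ ≠ 0) →
        ∀ K : IntermediateField ℚ LL, L ≤ K →
          (∀ σ : GG, σ ∈ galOf K ↔ σ ∈ galOf L ∧ ψ σ = 0) →
          Nonempty (CyclicReciprocity p L K ψ)

end FLTAgent.Lowering.P1
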