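import Fermat.Agent.Lowering.P1.Interface

/-!
# Local input of the Galois cohomology package

The local field at a place `V` over a number field `L` is the fixed field of the part of the
decomposition group fixing `L`; no completion is used.
-/

set_option autoImplicit false

noncomputable section

open scoped Pointwise

namespace FLTAgent.Lowering.P1

local notation "LL" => AlgebraicClosure ℚ
local notation "GG" => (AlgebraicClosure ℚ ≃ₐ[ℚ] AlgebraicClosure ℚ)

/-- The local field of `L` at `V`, inside the algebraic numbers. -/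
def localField (L : IntermediateField ℚ LL) (V : ValuationSubring LL) : IntermediateField ℚ LL :=
  IntermediateField.fixedField (galOf L ⊓ V.decompositionSubgroup ℚ)

/-- The automorphisms fixing the local field are those of the decomposition group over `L`. -/
def LocalGalois : Prop :=
  ∀ (L : IntermediateField ℚ LL), FiniteDimensional ℚ L →
    ∀ (l : ℕ) (V : ValuationSubring LL), l.Prime → V.LiesOverPrime l → ∀ σ : GG,
      (∀ x ∈ localField L V, σ x = x) → σ ∈ galOf L ⊓ V.decompositionSubgroup ℚ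

/-- A number field is dense in each of its local fields. -/
def LocalDense : Prop :=
  ∀ (L : IntermediateField ℚ LL), FiniteDimensional ℚ L →
    ∀ (l : ℕ) (V : ValuationSubring LL), l.Prime → V.LiesOverPrime l →
      ∀ z ∈ localField L V, ∀ ε : LL, ε ≠ 0 →
        ∃ a ∈ L, V.valuation (z - a) ≤ V.valuation ε

/-- Elements of a local field close to one are powers. -/
def LocalRoot : Prop :=
  ∀ (L : IntermediateField ℚ LL), FiniteDimensional ℚ L →
    ∀ (l : ℕ) (V : ValuationSubring LL), l.Prime → V.LiesOverPrime l →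
      ∀ m : ℕ, 0 < m → ∀ z ∈ localField L V, V.valuation (z - 1) ≤ V.valuation ((l * m ^ 2 : ℕ) : LL) →
        ∃ y ∈ localField L V, y ^ m = z

/-- The norm index of a cyclic extension of degree `p` which is not split. -/
def LocalIndex : Prop :=
  ∀ (p : ℕ) [Fact p.Prime] (L K : IntermediateField ℚ LL), FiniteDimensional ℚ L →
    FiniteDimensional ℚ K → L ≤ K → (∃ ζ ∈ L, IsPrimitiveRoot ζ p) →
    (∀ σ ∈ galOf L, ∀ τ ∈ galOf K, σ * τ * σ⁻¹ ∈ galOf K) →
    (galOf K).relIndex (galOf L) = p →
    ∀ (l : ℕ) (V : ValuationSubring LL), l.Prime → V.LiesOverPrime l →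
      ¬ galOf L ⊓ V.decompositionSubgroup ℚ ≤ galOf K →
      ∃ b₀ ∈ L, b₀ ≠ 0 ∧ ¬ IsNormOn p L K (V.decompositionSubgroup ℚ) b₀ ∧
        ∀ b ∈ localField L V, b ≠ 0 →
          ∃ i < p, IsNormOn p L K (V.decompositionSubgroup ℚ) (b * b₀ ^ i)

/-- Units are norms in an unramified cyclic extension of degree `p`. -/
def LocalUnitNorm : Prop :=
  ∀ (p : ℕ) [Fact p.Prime] (L K : IntermediateField ℚ LL), FiniteDimensional ℚ L →
    FiniteDimensional ℚ K → L ≤ K →
    (∀ σ ∈ galOf L, ∀ τ ∈ galOf K, σ * τ * σ⁻¹ ∈ galOf K) →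
    (galOf K).relIndex (galOf L) = p →
    ∀ (l : ℕ) (V : ValuationSubring LL), l.Prime → V.LiesOverPrime l →
      (∀ σ ∈ galOf L, σ ∈ V.inertiaSubgroupIn ℚ → σ ∈ galOf K) →
      ∀ b ∈ localField L V, b ≠ 0 → b ∈ V → b⁻¹ ∈ V →
        IsNormOn p L K (V.decompositionSubgroup ℚ) b

/-- The number of classes modulo `p`-th powers in a local field with the roots of unity. -/
def LocalPowerIndex : Prop :=
  ∀ (p : ℕ) [Fact p.Prime] (L : IntermediateField ℚ LL), FiniteDimensional ℚ L →
    (∃ ζ ∈ L, IsPrimitiveRoot ζ p) →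
    ∀ (l : ℕ) (V : ValuationSubring LL), l.Prime → V.LiesOverPrime l →
      Nat.card ((↥(localField L V))ˣ ⧸ (powMonoidHom p : (↥(localField L V))ˣ →* _).range) =
        p ^ (2 + if l = p then (galOf L).relIndex (V.decompositionSubgroup ℚ) else 0)

/-- Simultaneous approximation at finitely many distinct places of `L`. -/
def LocalApprox : Prop :=
  ∀ (L : IntermediateField ℚ LL), FiniteDimensional ℚ L →
    ∀ (R : Finset (ValuationSubring LL)),
      (∀ V ∈ R, ∃ l : ℕ, l.Prime ∧ V.LiesOverPrime l) →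
      (∀ V ∈ R, ∀ W ∈ R, ∀ σ ∈ galOf L, σ • V = W → V = W) →
      ∀ (z : ValuationSubring LL → LL), (∀ V ∈ R, z V ∈ localField L V) →
        ∀ ε : LL, ε ≠ 0 → ∃ a ∈ L, ∀ V ∈ R, V.valuation (z V - a) ≤ V.valuation ε

/-- Unramified cyclic extensions of every `p`-power degree. -/
def LocalUnramified : Prop :=
  ∀ (p : ℕ) [Fact p.Prime] (L : IntermediateField ℚ LL), FiniteDimensional ℚ L →
    ∀ (l : ℕ) (V : ValuationSubring LL), l.Prime → V.LiesOverPrime l → ∀ m : ℕ,
      ∃ χ : GG → ZMod (p ^ m), LevC (MonoidHom.id GG) χ ∧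
        (∀ σ ∈ galOf L ⊓ V.decompositionSubgroup ℚ, ∀ τ ∈ galOf L ⊓ V.decompositionSubgroup ℚ,
          χ (σ * τ) = χ σ + χ τ) ∧
        (∀ σ ∈ galOf L ⊓ V.inertiaSubgroupIn ℚ, χ σ = 0) ∧
        ∀ a, ∃ σ ∈ galOf L ⊓ V.decompositionSubgroup ℚ, χ σ = a

/-- All local facts. -/
structure LocalFacts : Prop where
  galois : LocalGalois
  dense : LocalDense
  root : LocalRoot
  index : LocalIndex
  unitNorm : LocalUnitNorm
  powerIndex : LocalPowerIndex
  approx : LocalApprox
  unramified : LocalUnramified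

/-- The local package. -/
def TargetLocal : Prop :=
  LocalFacts

end FLTAgent.Lowering.P1
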